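import Fermat.Agent.Jac.Descent.LocHom

/-!
# `LocHom`s and restriction along immersions of opens

`LocHom.toRestrict` and `ofRestrict` pass between the two descriptions.
-/

set_option autoImplicit false

universe u

open CategoryTheory CategoryTheory.Limits AlgebraicGeometry Opposite TopologicalSpace

noncomputable section

namespace Fermat.Agent.Jac.Descent

variable {X Y : Scheme.{u}} (g : Y ⟶ X) [IsOpenImmersion g] {A B : X.Modules}

namespace LocHom

/-- A `LocHom` gives morphisms between restrictions. -/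
def toRestrict {Ω : X.Opens} (φ : LocHom A B Ω) (h : ∀ U : Y.Opens, g ''ᵁ U ≤ Ω) :
    A.restrict g ⟶ B.restrict g :=
  LocHom.toHom
    { app := fun U _ => φ.app (g ''ᵁ U) (h U)
      app_smul := fun U _ r x => φ.app_smul (g ''ᵁ U) (h U) ((g.appIso U).inv r) x
      app_mres := fun U U' hU _ x => φ.app_mres (g ''ᵁ U) (g ''ᵁ U') (g.image_mono hU) (h U) x }

theorem isIso_toRestrict {Ω : X.Opens} {φ : LocHom A B Ω} (hφ : φ.Bij)
    (h : ∀ U : Y.Opens, g ''ᵁ U ≤ Ω) : IsIso (φ.toRestrict g h) :=
  isIso_toHom fun U _ => hφ (g ''ᵁ U) (h U)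

theorem image_le_opensRange (U : Y.Opens) : g ''ᵁ U ≤ g.opensRange := by
  rw [← g.image_top_eq_opensRange]
  exact g.image_mono le_top

theorem le_image_preimage {V : X.Opens} (hV : V ≤ g.opensRange) : V ≤ g ''ᵁ g ⁻¹ᵁ V := by
  rw [g.image_preimage_eq_opensRange_inf]
  exact le_inf hV le_rfl

/-- A morphism between restrictions, acting on sections over image opens. -/
def rapp (f : A.restrict g ⟶ B.restrict g) (U : Y.Opens) : Γ(A, g ''ᵁ U) →+ Γ(B, g ''ᵁ U) :=
  (f.app U).hom

theorem rapp_smul (f : A.restrict g ⟶ B.restrict g) (U : Y.Opens) (s : Γ(X, g ''ᵁ U))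
    (y : Γ(A, g ''ᵁ U)) : rapp g f U (s • y) = s • rapp g f U y := by
  have aux : ∀ (r : Γ(Y, U)) (z : Γ(A.restrict g, U)), f.app U (r • z) = r • f.app U z :=
    fun r z => Scheme.Modules.Hom.app_smul f r z
  have hs : (g.appIso U).inv ((g.appIso U).hom s) = s := Iso.hom_inv_id_apply _ _
  rw [← hs]
  exact aux ((g.appIso U).hom s) y

theorem rapp_mres (f : A.restrict g ⟶ B.restrict g) {U U' : Y.Opens} (h : U' ≤ U)
    (y : Γ(A, g ''ᵁ U)) :
    rapp g f U' (mres A (g.image_mono h) y) = mres B (g.image_mono h) (rapp g f U y) :=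
  ConcreteCategory.congr_hom (f.mapPresheaf.naturality (homOfLE h).op) y

theorem bij_rapp (f : A.restrict g ⟶ B.restrict g) [IsIso f] (U : Y.Opens) :
    Function.Bijective (rapp g f U) :=
  (ConcreteCategory.isIso_iff_bijective (f.app U)).mp inferInstance

/-- Morphisms between restrictions give `LocHom`s. -/
def ofRestrict (f : A.restrict g ⟶ B.restrict g) : LocHom A B g.opensRange where
  app V hV :=
    ((mres B (le_image_preimage g hV)).comp (rapp g f (g ⁻¹ᵁ V))).comp
      (mres A (g.image_preimage_le V))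
  app_smul V hV r x := by
    simp only [AddMonoidHom.comp_apply, mres_smul, rapp_smul, fres_fres, fres_refl]
  app_mres V V' h hV x := by
    simp only [AddMonoidHom.comp_apply, mres_mres]
    rw [← mres_mres A (g.image_preimage_le V) (g.image_mono (g.preimage_mono h)),
      rapp_mres g f (g.preimage_mono h), mres_mres]

/-- An isomorphism of restrictions gives a bijective `LocHom`. -/
theorem bij_ofRestrict (f : A.restrict g ⟶ B.restrict g) [IsIso f] : (ofRestrict g f).Bij := by
  intro V hV
  have hb : ∀ (E : X.Modules) {V' V'' : X.Opens} (h : V'' ≤ V') (_ : V' ≤ V''),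
      Function.Bijective (mres E h) := by
    intro E V' V'' h h'
    exact ⟨fun a b e => by simpa using congrArg (mres E h') e,
      fun a => ⟨mres E h' a, by simp⟩⟩
  exact (hb B (le_image_preimage g hV) (g.image_preimage_le V)).comp
    ((bij_rapp g f (g ⁻¹ᵁ V)).comp (hb A (g.image_preimage_le V) (le_image_preimage g hV)))

end LocHom

end Fermat.Agent.Jac.Descent

end
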