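import Fermat.Agent.Jac.Descent.LocHom

/-!
# Invertible modules rigidified along a section

`p : X ⟶ T` has a section `s`, and the functions on `p ⁻¹ᵁ W` are those on `W`. An isomorphism
of rigidified invertible modules over `W` can then be normalised in exactly one way.
-/

set_option autoImplicit false

universe u

open CategoryTheory CategoryTheory.Limits AlgebraicGeometry Opposite TopologicalSpace

noncomputable section

namespace Fermat.Agent.Jac.Descent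

variable {X T : Scheme.{u}}

/-- The structure sheaf as a module. -/
abbrev oMod (X : Scheme.{u}) : X.Modules := SheafOfModules.unit X.ringCatSheaf

/-- A function as a section of the structure sheaf module. -/
def oSec {V : X.Opens} (f : Γ(X, V)) : Γ(oMod X, V) := f

/-- A section of the structure sheaf module as a function. -/
def oVal {V : X.Opens} (x : Γ(oMod X, V)) : Γ(X, V) := x

@[simp] theorem oVal_oSec {V : X.Opens} (f : Γ(X, V)) : oVal (oSec f) = f := rfl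

theorem oVal_injective {V : X.Opens} : Function.Injective (oVal (X := X) (V := V)) :=
  fun _ _ h => h

theorem oVal_smul {V : X.Opens} (f : Γ(X, V)) (x : Γ(oMod X, V)) :
    oVal (f • x) = f * oVal x := rfl

theorem oVal_mres {V V' : X.Opens} (h : V' ≤ V) (x : Γ(oMod X, V)) :
    oVal (mres (oMod X) h x) = fres X h (oVal x) := rfl

/-- Locally free of rank one on an open. -/
def IsLocFree (A : X.Modules) (Ω : X.Opens) : Prop :=
  ∀ z ∈ Ω, ∃ V : X.Opens, z ∈ V ∧ V ≤ Ω ∧ ∃ ψ : LocHom A (oMod X) V, ψ.Bij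

theorem IsLocFree.mono {A : X.Modules} {Ω Ω' : X.Opens} (hA : IsLocFree A Ω) (h : Ω' ≤ Ω) :
    IsLocFree A Ω' := by
  intro z hz
  obtain ⟨V, hzV, _, ψ, hψ⟩ := hA z (h hz)
  exact ⟨V ⊓ Ω', ⟨hzV, hz⟩, inf_le_right, ψ.res inf_le_left, hψ.res _⟩

/-- An endomorphism of a module locally free of rank one is a multiplication. -/
theorem exists_eq_smul {A : X.Modules} {Ω : X.Opens} (hA : IsLocFree A Ω) (θ : LocHom A A Ω) :
    ∃ h : Γ(X, Ω), ∀ (V : X.Opens) (hV : V ≤ Ω) (x : Γ(A, V)),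
      θ.app V hV x = fres X hV h • x := by
  choose V hzV hVΩ ψ hψ using hA
  let e : ∀ (z : Ω) (W : X.Opens), W ≤ V z.1 z.2 → Γ(A, W) := fun z W hW =>
    ((ψ z.1 z.2).symm (hψ z.1 z.2)).app W hW (oSec 1)
  let h₀ : ∀ z : Ω, Γ(X, V z.1 z.2) := fun z =>
    oVal ((ψ z.1 z.2).app _ le_rfl (θ.app _ (hVΩ z.1 z.2) (e z _ le_rfl)))
  have hloc : ∀ (z : Ω) (W : X.Opens) (hW : W ≤ V z.1 z.2) (x : Γ(A, W)),
      θ.app W (hW.trans (hVΩ z.1 z.2)) x = fres X hW (h₀ z) • x := by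
    intro z W hW x
    apply (hψ z.1 z.2 W hW).1
    apply oVal_injective
    set f := oVal ((ψ z.1 z.2).app W hW x) with hf
    have hx : x = f • e z W hW := by
      apply (hψ z.1 z.2 W hW).1
      rw [LocHom.app_smul, LocHom.app_symm_app]
      apply oVal_injective
      rw [oVal_smul, oVal_oSec, mul_one]
    have he : e z W hW = mres A hW (e z _ le_rfl) := by
      have h1 : oSec (1 : Γ(X, W)) = mres (oMod X) hW (oSec (1 : Γ(X, V z.1 z.2))) := by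
        apply oVal_injective
        rw [oVal_mres, oVal_oSec, oVal_oSec, map_one]
      simp only [e]
      rw [h1]
      exact ((ψ z.1 z.2).symm (hψ z.1 z.2)).app_mres (V z.1 z.2) W hW le_rfl _
    rw [LocHom.app_smul, oVal_smul, ← hf, hx, LocHom.app_smul, LocHom.app_smul, oVal_smul, he,
      θ.app_mres (V z.1 z.2) W hW (hVΩ z.1 z.2),
      (ψ z.1 z.2).app_mres (V z.1 z.2) W hW le_rfl, oVal_mres]
    simp only [h₀]
    ring
  obtain ⟨h, hh⟩ := fres_glue (fun z : Ω => V z.1 z.2) (fun z => hVΩ z.1 z.2)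
    (fun z hz => Opens.mem_iSup.mpr ⟨⟨z, hz⟩, hzV z hz⟩) h₀ (fun z w => by
      have e1 := hloc z (V z.1 z.2 ⊓ V w.1 w.2) inf_le_left (e z _ inf_le_left)
      rw [hloc w (V z.1 z.2 ⊓ V w.1 w.2) inf_le_right] at e1
      have e2 := congrArg (fun y => oVal ((ψ z.1 z.2).app _ inf_le_left y)) e1
      simpa [LocHom.app_smul, oVal_smul, e] using e2.symm)
  refine ⟨h, fun W hW x => mres_ext A _ _ fun z hz => ?_⟩
  refine ⟨W ⊓ V z (hW hz), inf_le_left, ⟨hz, hzV z (hW hz)⟩, ?_⟩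
  rw [← θ.app_mres W _ inf_le_left hW, hloc ⟨z, hW hz⟩ _ inf_le_right, mres_smul,
    ← hh ⟨z, hW hz⟩, fres_fres, fres_fres]

variable (p : X ⟶ T) (s : T ⟶ X)

/-- A module on `X` which over `W` is invertible and rigidified along `s`. -/
structure Piece (W : T.Opens) : Type (u + 1) where
  /-- The module. -/
  A : X.Modules
  free : IsLocFree A (p ⁻¹ᵁ W)
  /-- The rigidification. -/
  ρ : LocHom A ((Scheme.Modules.pushforward s).obj (oMod T)) (p ⁻¹ᵁ W)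
  gen : ∀ τ ∈ W, ∃ (V : X.Opens) (hV : V ≤ p ⁻¹ᵁ W) (e : Γ(A, V)),
    τ ∈ T.basicOpen (show Γ(T, s ⁻¹ᵁ V) from ρ.app V hV e)

variable {p s} {W W' W₁ W₂ : T.Opens}

/-- The rigidification on sections. -/
def Piece.rho (P : Piece p s W) (V : X.Opens) (hV : V ≤ p ⁻¹ᵁ W) :
    Γ(P.A, V) →+ Γ(T, s ⁻¹ᵁ V) :=
  P.ρ.app V hV

theorem Piece.rho_smul (P : Piece p s W) (V : X.Opens) (hV : V ≤ p ⁻¹ᵁ W) (f : Γ(X, V))
    (x : Γ(P.A, V)) : P.rho V hV (f • x) = s.app V f * P.rho V hV x :=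
  P.ρ.app_smul V hV f x

theorem Piece.rho_mres (P : Piece p s W) {V V' : X.Opens} (h : V' ≤ V) (hV : V ≤ p ⁻¹ᵁ W)
    (x : Γ(P.A, V)) :
    P.rho V' (h.trans hV) (mres P.A h x) = fres T (s.preimage_mono h) (P.rho V hV x) :=
  P.ρ.app_mres V V' h hV x

/-- An open of `T` is contained in `W` if its preimage is. -/
theorem preimage_section_le (hsp : s ≫ p = 𝟙 T) {V : X.Opens} (hV : V ≤ p ⁻¹ᵁ W) :
    s ⁻¹ᵁ V ≤ W := by
  refine (s.preimage_mono hV).trans (le_of_eq ?_)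
  rw [← Scheme.Hom.comp_preimage, hsp]
  rfl

theorem section_app (hsp : s ≫ p = 𝟙 T) {V : X.Opens} (hV : V ≤ p ⁻¹ᵁ W) (a : Γ(T, W)) :
    s.app V (fres X hV (p.app W a)) = fres T (preimage_section_le hsp hV) a := by
  have h1 := Scheme.Hom.congr_app hsp W
  have h2 : X.presheaf.map (homOfLE hV).op ≫ s.app V =
      s.app (p ⁻¹ᵁ W) ≫ T.presheaf.map (homOfLE (s.preimage_mono hV)).op :=
    s.naturality (homOfLE hV).op
  have h3 : p.app W ≫ X.presheaf.map (homOfLE hV).op ≫ s.app V =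
      T.presheaf.map (homOfLE (preimage_section_le hsp hV)).op := by
    rw [h2, ← Category.assoc, ← Scheme.Hom.comp_app, h1, Scheme.Hom.id_app]
    erw [Category.id_comp, ← Functor.map_comp]
    rfl
  exact ConcreteCategory.congr_hom h3 a

variable (hsp : s ≫ p = 𝟙 T) (hfun : ∀ U : T.Opens, Function.Bijective (p.app U).hom)

/-- A `LocHom` respects the rigidifications. -/
def Normal (P : Piece p s W₁) (Q : Piece p s W₂) (φ : LocHom P.A Q.A (p ⁻¹ᵁ W)) : Prop :=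
  ∀ (V : X.Opens) (hV : V ≤ p ⁻¹ᵁ W) (hP : V ≤ p ⁻¹ᵁ W₁) (hQ : V ≤ p ⁻¹ᵁ W₂) (x : Γ(P.A, V)),
    Q.rho V hQ (φ.app V hV x) = P.rho V hP x

theorem Normal.res {P : Piece p s W₁} {Q : Piece p s W₂} {φ : LocHom P.A Q.A (p ⁻¹ᵁ W)}
    (hφ : Normal P Q φ) (h : W' ≤ W) : Normal P Q (φ.res (p.preimage_mono h)) :=
  fun V hV => hφ V (hV.trans (p.preimage_mono h))

include hsp hfun in
/-- A normal isomorphism is unique. -/
theorem normal_unique {P : Piece p s W₁} {Q : Piece p s W₂} (h₁ : W ≤ W₁) (h₂ : W ≤ W₂)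
    {φ φ' : LocHom P.A Q.A (p ⁻¹ᵁ W)} (hn : Normal P Q φ)
    (hb' : φ'.Bij) (hn' : Normal P Q φ') : φ = φ' := by
  obtain ⟨h, hh⟩ := exists_eq_smul (P.free.mono (p.preimage_mono h₁)) (φ.comp (φ'.symm hb'))
  obtain ⟨a, rfl⟩ := (hfun W).2 h
  have key : a = 1 := by
    refine fres_ext a 1 fun τ hτ => ?_
    obtain ⟨V, hV, e, he⟩ := P.gen τ (h₁ hτ)
    have hV' : V ⊓ p ⁻¹ᵁ W ≤ p ⁻¹ᵁ W := inf_le_right
    set e' := mres P.A (inf_le_left : V ⊓ p ⁻¹ᵁ W ≤ V) e with he'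
    have hP : V ⊓ p ⁻¹ᵁ W ≤ p ⁻¹ᵁ W₁ := inf_le_left.trans hV
    have hQ : V ⊓ p ⁻¹ᵁ W ≤ p ⁻¹ᵁ W₂ := hV'.trans (p.preimage_mono h₂)
    have e1 : P.rho _ hP ((φ.comp (φ'.symm hb')).app _ hV' e') = P.rho _ hP e' := by
      rw [LocHom.comp_app, ← hn' _ hV' hP hQ, LocHom.app_symm_app, hn _ hV' hP hQ]
    rw [hh _ hV', Piece.rho_smul, section_app hsp] at e1
    have hτV : τ ∈ s ⁻¹ᵁ (V ⊓ p ⁻¹ᵁ W) := by
      refine ⟨T.basicOpen_le _ he, ?_⟩
      change p (s τ) ∈ W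
      rw [← Scheme.Hom.comp_apply, hsp]
      exact hτ
    let u' := P.rho _ hP e'
    have hu : τ ∈ T.basicOpen u' := by
      simp only [u', he']
      rw [Piece.rho_mres P inf_le_left hV]
      exact (T.basicOpen_res (P.rho V hV e) (homOfLE (s.preimage_mono inf_le_left)).op).ge ⟨hτV, he⟩
    have hle : T.basicOpen u' ≤ W := (T.basicOpen_le _).trans (preimage_section_le hsp hV')
    refine ⟨T.basicOpen u', hle, hu, ?_⟩
    have hunit : IsUnit (fres T (T.basicOpen_le u') u') :=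
      RingedSpace.isUnit_res_basicOpen T.toSheafedSpace u'
    have e2 := congrArg (fres T (T.basicOpen_le u')) e1
    rw [map_mul, fres_fres] at e2
    rw [map_one]
    exact hunit.mul_right_cancel (e2.trans (one_mul _).symm)
  ext V hV x
  have := hh V hV x
  rw [key, map_one, map_one, one_smul, LocHom.comp_app] at this
  calc φ.app V hV x = φ'.app V hV ((φ'.symm hb').app V hV (φ.app V hV x)) := by simp
    _ = _ := by rw [this]

include hsp in
/-- Near each point an isomorphism can be normalised. -/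
theorem exists_normal_near {P : Piece p s W₁} {Q : Piece p s W₂} (h₁ : W ≤ W₁) (h₂ : W ≤ W₂)
    (φ : LocHom P.A Q.A (p ⁻¹ᵁ W)) (hb : φ.Bij) (τ : T) (hτ : τ ∈ W) :
    ∃ W' : T.Opens, τ ∈ W' ∧ W' ≤ W ∧
      ∃ φ' : LocHom P.A Q.A (p ⁻¹ᵁ W'), φ'.Bij ∧ Normal P Q φ' := by
  have hsτ : s τ ∈ p ⁻¹ᵁ W := by
    change p (s τ) ∈ W
    rw [← Scheme.Hom.comp_apply, hsp]
    exact hτ
  obtain ⟨V₁, hV₁, e, he⟩ := P.gen τ (h₁ hτ)
  let V₁' := V₁ ⊓ p ⁻¹ᵁ W
  have hV₁W : V₁' ≤ p ⁻¹ᵁ W := inf_le_right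
  have hV₁P : V₁' ≤ p ⁻¹ᵁ W₁ := inf_le_left.trans hV₁
  have hV₁Q : V₁' ≤ p ⁻¹ᵁ W₂ := hV₁W.trans (p.preimage_mono h₂)
  let e' := mres P.A (inf_le_left : V₁' ≤ V₁) e
  let uP := P.rho V₁' hV₁P e'
  let uQ := Q.rho V₁' hV₁Q (φ.app V₁' hV₁W e')
  have hu : τ ∈ T.basicOpen uP := by
    simp only [uP, e']
    rw [Piece.rho_mres P inf_le_left hV₁]
    exact (T.basicOpen_res (P.rho V₁ hV₁ e) (homOfLE (s.preimage_mono inf_le_left)).op).ge
      ⟨⟨T.basicOpen_le _ he, hsτ⟩, he⟩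
  let W₀ := T.basicOpen uP
  have hW₀le : W₀ ≤ s ⁻¹ᵁ V₁' := T.basicOpen_le uP
  have hW₀ : W₀ ≤ W := hW₀le.trans (preimage_section_le hsp hV₁W)
  have hunit : IsUnit (fres T hW₀le uP) := RingedSpace.isUnit_res_basicOpen T.toSheafedSpace uP
  let a : Γ(T, W₀) := fres T hW₀le uQ * ↑hunit.unit⁻¹
  have ha : a * fres T hW₀le uP = fres T hW₀le uQ := by
    simp [a, mul_assoc]
  have claim : ∀ (V : X.Opens) (hV : V ≤ p ⁻¹ᵁ W₀) (hVW : V ≤ p ⁻¹ᵁ W) (hP : V ≤ p ⁻¹ᵁ W₁)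
      (hQ : V ≤ p ⁻¹ᵁ W₂) (x : Γ(P.A, V)),
      Q.rho V hQ (φ.app V hVW x) = fres T (preimage_section_le hsp hV) a * P.rho V hP x := by
    intro V hV hVW hP hQ x
    refine fres_ext _ _ fun σ hσ => ?_
    have hσ₀ : σ ∈ W₀ := preimage_section_le hsp hV hσ
    have hσ₁ : s σ ∈ V₁' := hW₀le hσ₀
    obtain ⟨V₀, hzV₀, hV₀W, ψ, hψ⟩ := P.free.mono (le_refl _) (s σ) (hP hσ)
    let U := V₀ ⊓ (V ⊓ V₁')
    have hU₀ : U ≤ V₀ := inf_le_left
    have hUV : U ≤ V := inf_le_right.trans inf_le_left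
    have hU₁ : U ≤ V₁' := inf_le_right.trans inf_le_right
    refine ⟨s ⁻¹ᵁ U, s.preimage_mono hUV, ⟨hzV₀, hσ, hσ₁⟩, ?_⟩
    let ε₀ := (ψ.symm hψ).app U hU₀ (oSec 1)
    have gen : ∀ y : Γ(P.A, U), y = oVal (ψ.app U hU₀ y) • ε₀ := by
      intro y
      apply (hψ U hU₀).1
      rw [LocHom.app_smul, LocHom.app_symm_app]
      apply oVal_injective
      rw [oVal_smul, oVal_oSec, mul_one]
    have hUW₀ : s ⁻¹ᵁ U ≤ W₀ := (s.preimage_mono hUV).trans (preimage_section_le hsp hV)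
    have ka : fres T hUW₀ a * P.rho U (hUV.trans hP) (mres P.A hU₁ e') =
        Q.rho U (hUV.trans hQ) (φ.app U (hUV.trans hVW) (mres P.A hU₁ e')) := by
      have := congrArg (fres T hUW₀) ha
      rw [map_mul, fres_fres, fres_fres] at this
      rw [φ.app_mres V₁' U hU₁ hV₁W]
      exact ((congrArg (fres T hUW₀ a * ·) (P.rho_mres hU₁ hV₁P e')).trans this).trans
        (Q.rho_mres hU₁ hV₁Q _).symm
    have hu' : IsUnit (P.rho U (hUV.trans hP) (mres P.A hU₁ e')) := by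
      have := hunit.map (fres T hUW₀)
      rw [fres_fres] at this
      exact (P.rho_mres hU₁ hV₁P e').symm ▸ this
    have main : Q.rho U (hUV.trans hQ) (φ.app U (hUV.trans hVW) (mres P.A hUV x)) =
        fres T hUW₀ a * P.rho U (hUV.trans hP) (mres P.A hUV x) := by
      apply hu'.mul_left_cancel
      rw [← mul_assoc, mul_comm _ (fres T hUW₀ a), ka, gen (mres P.A hUV x), gen (mres P.A hU₁ e')]
      simp only [LocHom.app_smul, Piece.rho_smul]
      ring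
    rw [map_mul, fres_fres, ← P.rho_mres hUV hP, ← Q.rho_mres hUV hQ, ← φ.app_mres V U hUV hVW]
    exact main
  obtain ⟨VQ, hVQ, eQ, heQ⟩ := Q.gen τ (h₂ hτ)
  let W' := T.basicOpen a
  have hW' : W' ≤ W₀ := T.basicOpen_le a
  have hτ' : τ ∈ W' := by
    let U := VQ ⊓ p ⁻¹ᵁ W₀
    have hU : U ≤ p ⁻¹ᵁ W₀ := inf_le_right
    have hUW : U ≤ p ⁻¹ᵁ W := hU.trans (p.preimage_mono hW₀)
    obtain ⟨x, hx⟩ := (hb U hUW).2 (mres Q.A inf_le_left eQ)
    have hc := claim U hU hUW (hUW.trans (p.preimage_mono h₁)) (hUW.trans (p.preimage_mono h₂)) x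
    rw [hx] at hc
    have hτU : τ ∈ s ⁻¹ᵁ U := by
      refine ⟨T.basicOpen_le _ heQ, ?_⟩
      change p (s τ) ∈ W₀
      rw [← Scheme.Hom.comp_apply, hsp]
      exact hu
    have h3 : τ ∈ T.basicOpen (Q.rho U (hUW.trans (p.preimage_mono h₂))
        (mres Q.A inf_le_left eQ)) := by
      rw [Piece.rho_mres Q inf_le_left hVQ]
      exact (T.basicOpen_res (Q.rho VQ hVQ eQ) (homOfLE (s.preimage_mono inf_le_left)).op).ge
        ⟨hτU, heQ⟩
    rw [hc, Scheme.basicOpen_mul] at h3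
    exact ((T.basicOpen_res a (homOfLE (preimage_section_le hsp hU)).op).le h3.1).2
  have hua : IsUnit (fres T hW' a) := RingedSpace.isUnit_res_basicOpen T.toSheafedSpace a
  refine ⟨W', hτ', hW'.trans hW₀,
    LocHom.smul (p.app W' ↑hua.unit⁻¹) (φ.res (p.preimage_mono (hW'.trans hW₀))),
    (hb.res _).smul ((Units.isUnit _).map (p.app W').hom), ?_⟩
  intro V hV hP hQ x
  rw [LocHom.smul_app, Piece.rho_smul, section_app hsp, LocHom.res_app,
    claim V (hV.trans (p.preimage_mono hW')) _ hP hQ x,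
    ← fres_fres hW' (preimage_section_le hsp hV), ← mul_assoc, ← map_mul, IsUnit.val_inv_mul,
    map_one, one_mul]

include hsp hfun in
/-- An isomorphism can be normalised. -/
theorem exists_normal {P : Piece p s W₁} {Q : Piece p s W₂} (h₁ : W ≤ W₁) (h₂ : W ≤ W₂)
    (φ : LocHom P.A Q.A (p ⁻¹ᵁ W)) (hb : φ.Bij) :
    ∃ φ' : LocHom P.A Q.A (p ⁻¹ᵁ W), φ'.Bij ∧ Normal P Q φ' := by
  choose W' hτ hW Φ hΦb hΦn using fun τ : W =>
    exists_normal_near hsp h₁ h₂ φ hb τ.1 τ.2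
  have hcov : p ⁻¹ᵁ W ≤ ⨆ τ, p ⁻¹ᵁ W' τ := by
    intro z hz
    exact Opens.mem_iSup.mpr ⟨⟨p z, hz⟩, hτ ⟨p z, hz⟩⟩
  obtain ⟨φ', hφ'⟩ := LocHom.exists_glue _ hcov Φ (by
    intro k l V hk hl x
    have hle : V ≤ p ⁻¹ᵁ (W' k ⊓ W' l) := le_inf hk hl
    have := normal_unique hsp hfun (W := W' k ⊓ W' l) (inf_le_left.trans ((hW k).trans h₁))
      (inf_le_left.trans ((hW k).trans h₂))
      ((hΦn k).res (inf_le_left : W' k ⊓ W' l ≤ W' k))
      ((hΦb l).res (p.preimage_mono inf_le_right))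
      ((hΦn l).res (inf_le_right : W' k ⊓ W' l ≤ W' l))
    exact congrArg (fun F : LocHom P.A Q.A _ => F.app V hle x) this)
  refine ⟨φ', LocHom.bij_of_locally φ' _ hcov fun k V hV hk => ?_, ?_⟩
  · have : φ'.app V hV = (Φ k).app V hk := AddMonoidHom.ext (hφ' k V hV hk)
    rw [this]
    exact hΦb k V hk
  · intro V hV hP hQ x
    refine fres_ext _ _ fun σ hσ => ?_
    obtain ⟨k, hk⟩ := Opens.mem_iSup.mp (hcov (hV hσ))
    have hU : V ⊓ p ⁻¹ᵁ W' k ≤ p ⁻¹ᵁ W := inf_le_left.trans hV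
    refine ⟨s ⁻¹ᵁ (V ⊓ p ⁻¹ᵁ W' k), s.preimage_mono inf_le_left, ⟨hσ, hk⟩, ?_⟩
    rw [← Q.rho_mres inf_le_left hQ, ← P.rho_mres inf_le_left hP,
      ← φ'.app_mres V _ inf_le_left hV, hφ' k _ hU inf_le_right]
    exact hΦn k _ inf_le_right _ _ _

end Fermat.Agent.Jac.Descent

end
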