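import Fermat.Prelude.Def_AlgebraicGeometry_RelativePicardFunctor
import Fermat.Agent.Jac.Descent.LocRestrict
import Fermat.Agent.Jac.Descent.Piece

/-!
# Pieces and rigidified invertible modules

`Piece.rigidified` and `exists_piece_pushforward` pass between pieces and rigidified bundles.
-/

set_option autoImplicit false

universe u

open CategoryTheory CategoryTheory.Limits AlgebraicGeometry Opposite TopologicalSpace

noncomputable section

namespace Fermat.Agent.Jac.Descent

variable {X T Y S : Scheme.{u}}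

/-- The transpose of a morphism out of a pullback. -/
def transpose (f : S ⟶ Y) {M : Y.Modules} {N : S.Modules}
    (r : (Scheme.Modules.pullback f).obj M ⟶ N) : M ⟶ (Scheme.Modules.pushforward f).obj N :=
  (Scheme.Modules.pullbackPushforwardAdjunction f).homEquiv M N r

/-- A trivialised pullback has, near every point, a section with unit value. -/
theorem exists_unit_section (f : S ⟶ Y) (M : Y.Modules)
    (r : (Scheme.Modules.pullback f).obj M ≅ oMod S) (τ : S) :
    ∃ (V : Y.Opens) (e : Γ(M, V)),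
      τ ∈ S.basicOpen (show Γ(S, f ⁻¹ᵁ V) from (transpose f r.hom).app V e) := by
  by_contra hcon
  simp only [not_exists] at hcon
  let i := S.fromSpecResidueField τ
  let q : oMod S ⟶ (Scheme.Modules.pushforward i).obj (oMod (Spec (S.residueField τ))) :=
    SheafOfModules.unitToPushforwardObjUnit i.toRingCatSheafHom
  have hzero : transpose f r.hom ≫ (Scheme.Modules.pushforward f).map q = 0 := by
    ext V x
    let a : Γ(S, f ⁻¹ᵁ V) := (transpose f r.hom).app V x
    change (show Γ(Spec (S.residueField τ), i ⁻¹ᵁ f ⁻¹ᵁ V) from i.app (f ⁻¹ᵁ V) a) = 0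
    rw [← basicOpen_eq_bot_iff, ← Scheme.preimage_basicOpen, eq_bot_iff]
    intro z hz
    apply hcon V x
    have hz' : i z ∈ S.basicOpen a := hz
    rwa [Scheme.fromSpecResidueField_apply] at hz'
  have h1 : transpose f (r.hom ≫ q) = 0 := by
    rw [← hzero]
    exact (Scheme.Modules.pullbackPushforwardAdjunction f).homEquiv_naturality_right r.hom q
  have h2 : r.hom ≫ q = 0 := by
    apply ((Scheme.Modules.pullbackPushforwardAdjunction f).homEquiv M _).injective
    refine h1.trans ?_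
    symm
    rw [Adjunction.homEquiv_unit, Functor.map_zero, comp_zero]
  have h3 : q = 0 := by
    rw [← cancel_epi r.hom, h2, comp_zero]
  have h4 := congrArg (fun F : oMod S ⟶ _ => F.app ⊤ (oSec (1 : Γ(S, ⊤)))) h3
  have h5 : i.app ⊤ (1 : Γ(S, ⊤)) = 0 := h4
  rw [map_one] at h5
  have : Nontrivial Γ(Spec (S.residueField τ), i ⁻¹ᵁ ⊤) :=
    (Scheme.ΓSpecIso (S.residueField τ)).commRingCatIsoToRingEquiv.nontrivial
  exact one_ne_zero h5

/-- An invertible module is locally free of rank one. -/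
theorem isLocFree_of_isInvertible {M : X.Modules} (hM : Scheme.Modules.IsInvertible M)
    (Ω : X.Opens) : IsLocFree M Ω := by
  refine IsLocFree.mono (Ω := ⊤) ?_ le_top
  intro x _
  obtain ⟨U, hxU, ⟨e⟩⟩ := hM.1 x
  let e' : M.restrict U.ι ≅ (oMod X).restrict U.ι :=
    (Scheme.Modules.restrictFunctorIsoPullback U.ι).app M ≪≫ e ≪≫
      (Scheme.Modules.restrictUnitIso U.ι).symm
  exact ⟨U, hxU, le_top, (LocHom.ofRestrict U.ι e'.hom).res U.opensRange_ι.ge,
    (LocHom.bij_ofRestrict U.ι e'.hom).res _⟩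

/-- A module locally free of rank one is invertible. -/
theorem isInvertible_of_isLocFree {M : X.Modules} (hM : IsLocFree M ⊤) :
    Scheme.Modules.IsInvertible M := by
  refine ⟨fun x => ?_⟩
  obtain ⟨U, hxU, -, ψ, hψ⟩ := hM x trivial
  have hle : ∀ U' : U.toScheme.Opens, U.ι ''ᵁ U' ≤ U := fun U' =>
    (LocHom.image_le_opensRange U.ι U').trans U.opensRange_ι.le
  have := LocHom.isIso_toRestrict U.ι hψ hle
  exact ⟨U, hxU, ⟨((Scheme.Modules.restrictFunctorIsoPullback U.ι).app M).symm ≪≫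
    asIso (ψ.toRestrict U.ι hle) ≪≫ Scheme.Modules.restrictUnitIso U.ι⟩⟩

/-- A morphism from an invertible module to the structure sheaf is an isomorphism if near
every point it takes a unit value. -/
theorem isIso_of_unit_values {L : S.Modules} (hL : IsLocFree L ⊤) (f : L ⟶ oMod S)
    (h : ∀ τ, ∃ (V : S.Opens) (y : Γ(L, V)), τ ∈ S.basicOpen (oVal (f.app V y))) : IsIso f := by
  choose U₀ hU₀ _ ψ hψ using hL
  choose V y hy using h
  let W : S → S.Opens := fun τ => U₀ τ trivial ⊓ S.basicOpen (oVal (f.app (V τ) (y τ)))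
  have hb : (LocHom.ofHom f ⊤).Bij := by
    refine LocHom.bij_of_locally _ W (fun τ _ => Opens.mem_iSup.mpr ⟨τ, hU₀ τ trivial, hy τ⟩) ?_
    intro τ V' hV' hW
    have h₀ : V' ≤ U₀ τ trivial := hW.trans inf_le_left
    have hVτ : V' ≤ V τ := (hW.trans inf_le_right).trans (S.basicOpen_le _)
    let gen := ((ψ τ trivial).symm (hψ τ trivial)).app V' h₀ (oSec 1)
    let b := oVal (f.app V' gen)
    have hf : ∀ z : Γ(L, V'), oVal (f.app V' z) = oVal ((ψ τ trivial).app V' h₀ z) * b := by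
      intro z
      have hz : z = oVal ((ψ τ trivial).app V' h₀ z) • gen := by
        apply (hψ τ trivial V' h₀).1
        rw [LocHom.app_smul, LocHom.app_symm_app]
        apply oVal_injective
        rw [oVal_smul, oVal_oSec, mul_one]
      conv_lhs => rw [hz, Scheme.Modules.Hom.app_smul, oVal_smul]
    have hb : IsUnit b := by
      have h1 : IsUnit (fres S hVτ (oVal (f.app (V τ) (y τ)))) := by
        have h2 := (RingedSpace.isUnit_res_basicOpen S.toSheafedSpace
          (oVal (f.app (V τ) (y τ)))).map (fres S (hW.trans inf_le_right))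
        exact (fres_fres (S.basicOpen_le _) (hW.trans inf_le_right) _) ▸ h2
      have h3 : oVal (f.app V' (mres L hVτ (y τ))) = fres S hVτ (oVal (f.app (V τ) (y τ))) :=
        (congrArg oVal ((LocHom.ofHom f ⊤).app_mres (V τ) V' hVτ le_top (y τ))).trans
          (oVal_mres hVτ _)
      rw [hf] at h3
      exact isUnit_of_mul_isUnit_right (h3 ▸ h1)
    have heq : (oVal ∘ ((LocHom.ofHom f ⊤).app V' hV') : Γ(L, V') → Γ(S, V')) =
        (· * b) ∘ oVal ∘ ((ψ τ trivial).app V' h₀) := funext hf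
    have hbij : Function.Bijective
        (oVal ∘ ((LocHom.ofHom f ⊤).app V' hV') : Γ(L, V') → Γ(S, V')) := by
      rw [heq]
      exact (hb.unit.mulRight.bijective).comp (Function.bijective_id.comp (hψ τ trivial V' h₀))
    exact hbij
  rw [Scheme.Modules.Hom.isIso_iff_isIso_app]
  intro V
  exact (ConcreteCategory.isIso_iff_bijective _).mpr (hb V le_top)

variable {p : X ⟶ T} {s : T ⟶ X}

/-- The piece of a global rigidified module. -/
def pieceOfGlobal (M : X.Modules) (hM : Scheme.Modules.IsInvertible M)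
    (r : (Scheme.Modules.pullback s).obj M ≅ oMod T) : Piece p s ⊤ where
  A := M
  free := isLocFree_of_isInvertible hM _
  ρ := LocHom.ofHom (transpose s r.hom) _
  gen τ _ := by
    obtain ⟨V, e, he⟩ := exists_unit_section s M r τ
    exact ⟨V, le_top, e, he⟩

/-- A piece over the whole base is a rigidified invertible module. -/
theorem Piece.rigidified (N : Piece p s (⊤ : T.Opens)) :
    Scheme.Modules.IsInvertible N.A ∧
      Nonempty ((Scheme.Modules.pullback s).obj N.A ≅ oMod T) := by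
  have hfree : IsLocFree N.A ⊤ := N.free
  have hinv := isInvertible_of_isLocFree hfree
  refine ⟨hinv, ?_⟩
  let ρ' : LocHom N.A ((Scheme.Modules.pushforward s).obj (oMod T)) ⊤ := N.ρ
  let f : (Scheme.Modules.pullback s).obj N.A ⟶ oMod T :=
    ((Scheme.Modules.pullbackPushforwardAdjunction s).homEquiv N.A (oMod T)).symm ρ'.toHom
  have hf : (Scheme.Modules.pullbackPushforwardAdjunction s).unit.app N.A ≫
      (Scheme.Modules.pushforward s).map f = ρ'.toHom := by
    exact ((Scheme.Modules.pullbackPushforwardAdjunction s).homEquiv_unit N.A (oMod T) f).symm.trans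
      (Equiv.apply_symm_apply _ _)
  have := isIso_of_unit_values (isLocFree_of_isInvertible (hinv.pullback s) ⊤) f fun τ => by
    obtain ⟨V, hV, e, he⟩ := N.gen τ trivial
    refine ⟨s ⁻¹ᵁ V, (((Scheme.Modules.pullbackPushforwardAdjunction s).unit.app N.A).app V e :
      Γ((Scheme.Modules.pushforward s).obj ((Scheme.Modules.pullback s).obj N.A), V)), ?_⟩
    have h := ConcreteCategory.congr_hom (congrArg (fun F => Scheme.Modules.Hom.app F V) hf) e
    exact Eq.mpr (congrArg (fun a : Γ(T, s ⁻¹ᵁ V) => τ ∈ T.basicOpen a) h) he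
  exact ⟨asIso f⟩

section Pushforward

variable (g : Y ⟶ X)

/-- Pushforward of a `LocHom`. -/
def LocHom.push {M N : Y.Modules} {Ω : Y.Opens} (φ : LocHom M N Ω) {Ω' : X.Opens}
    (h : g ⁻¹ᵁ Ω' ≤ Ω) :
    LocHom ((Scheme.Modules.pushforward g).obj M) ((Scheme.Modules.pushforward g).obj N) Ω' where
  app V hV := φ.app (g ⁻¹ᵁ V) ((g.preimage_mono hV).trans h)
  app_smul V _ f x := φ.app_smul (g ⁻¹ᵁ V) _ (g.app V f) x
  app_mres V V' hVV _ x := φ.app_mres (g ⁻¹ᵁ V) (g ⁻¹ᵁ V') (g.preimage_mono hVV) _ x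

theorem LocHom.Bij.push {M N : Y.Modules} {Ω : Y.Opens} {φ : LocHom M N Ω} (hφ : φ.Bij)
    {Ω' : X.Opens} (h : g ⁻¹ᵁ Ω' ≤ Ω) : (φ.push g h).Bij :=
  fun V hV => hφ (g ⁻¹ᵁ V) ((g.preimage_mono hV).trans h)

variable [IsOpenImmersion g]

theorem isLocFree_pushforward {M : Y.Modules} (hM : IsLocFree M ⊤) :
    IsLocFree ((Scheme.Modules.pushforward g).obj M) g.opensRange := by
  intro z hz
  obtain ⟨y, rfl⟩ := hz
  obtain ⟨V₀, hy, -, ψ, hψ⟩ := hM y trivial
  have hV : g ''ᵁ V₀ ≤ g.opensRange := LocHom.image_le_opensRange g V₀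
  let q : LocHom (oMod X) ((Scheme.Modules.pushforward g).obj (oMod Y)) (g ''ᵁ V₀) :=
    LocHom.ofHom (SheafOfModules.unitToPushforwardObjUnit g.toRingCatSheafHom) _
  have hq : q.Bij := by
    intro V h
    have := g.isIso_app V (h.trans hV)
    exact (ConcreteCategory.isIso_iff_bijective (g.app V)).mp inferInstance
  exact ⟨g ''ᵁ V₀, ⟨y, hy, rfl⟩, hV, (ψ.push g (g.preimage_image_eq V₀).le).comp (q.symm hq),
    (hψ.push g _).comp (LocHom.bij_symm q hq)⟩

variable {W : T.Opens} (s' : W.toScheme ⟶ Y) (comm : s' ≫ g = W.ι ≫ s)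

omit [IsOpenImmersion g] in
include comm in
theorem push_le (V : X.Opens) : s' ⁻¹ᵁ g ⁻¹ᵁ V ≤ W.ι ⁻¹ᵁ s ⁻¹ᵁ V := by
  rw [← Scheme.Hom.comp_preimage, comm]
  exact le_rfl

/-- Restricting functions from `s ⁻¹ᵁ V` to the same open seen in `W`. -/
def toW (V : X.Opens) : Γ(T, s ⁻¹ᵁ V) →+* Γ(W.toScheme, s' ⁻¹ᵁ g ⁻¹ᵁ V) :=
  (W.ι.appLE (s ⁻¹ᵁ V) (s' ⁻¹ᵁ g ⁻¹ᵁ V) (push_le g s' comm V)).hom

omit [IsOpenImmersion g] in
/-- `toW` is bijective when the preimage of the open lies in `W`. -/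
theorem bij_toW {V : X.Opens} (hV : s ⁻¹ᵁ V ≤ W) : Function.Bijective (toW g s' comm V) := by
  have := W.ι.isIso_app (s ⁻¹ᵁ V) (hV.trans W.opensRange_ι.ge)
  have heq : s' ⁻¹ᵁ g ⁻¹ᵁ V = W.ι ⁻¹ᵁ s ⁻¹ᵁ V := by
    rw [← Scheme.Hom.comp_preimage, comm]
    rfl
  have : IsIso (W.ι.appLE (s ⁻¹ᵁ V) (s' ⁻¹ᵁ g ⁻¹ᵁ V) (push_le g s' comm V)) := by
    rw [Scheme.Hom.appLE, show (homOfLE (push_le g s' comm V)) = eqToHom heq from rfl]
    infer_instance
  exact (ConcreteCategory.isIso_iff_bijective _).mp this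

omit [IsOpenImmersion g] in
theorem toW_app (V : X.Opens) (f : Γ(X, V)) :
    toW g s' comm V (s.app V f) = s'.app (g ⁻¹ᵁ V) (g.app V f) := by
  have h : s.app V ≫ W.ι.appLE (s ⁻¹ᵁ V) (s' ⁻¹ᵁ g ⁻¹ᵁ V) (push_le g s' comm V) =
      g.app V ≫ s'.app (g ⁻¹ᵁ V) := by
    refine (Scheme.Hom.comp_appLE W.ι s V (s' ⁻¹ᵁ g ⁻¹ᵁ V) (push_le g s' comm V)).symm.trans ?_
    rw [← Scheme.Hom.comp_app, Scheme.Hom.app_eq_appLE]
    simp only [comm]
    rfl
  exact ConcreteCategory.congr_hom h f

omit [IsOpenImmersion g] in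
theorem toW_fres {V V' : X.Opens} (h : V' ≤ V) (a : Γ(T, s ⁻¹ᵁ V)) :
    toW g s' comm V' (fres T (s.preimage_mono h) a) =
      fres W.toScheme (s'.preimage_mono (g.preimage_mono h)) (toW g s' comm V a) := by
  have h' : T.presheaf.map (homOfLE (s.preimage_mono h)).op ≫
      W.ι.appLE (s ⁻¹ᵁ V') (s' ⁻¹ᵁ g ⁻¹ᵁ V') (push_le g s' comm V') =
      W.ι.appLE (s ⁻¹ᵁ V) (s' ⁻¹ᵁ g ⁻¹ᵁ V) (push_le g s' comm V) ≫
        W.toScheme.presheaf.map (homOfLE (s'.preimage_mono (g.preimage_mono h))).op := by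
    rw [Scheme.Hom.map_appLE, Scheme.Hom.appLE_map]
  exact ConcreteCategory.congr_hom h' a

variable (hsp : s ≫ p = 𝟙 T) (hg : g.opensRange = p ⁻¹ᵁ W)

include hsp comm hg in
/-- The piece of a rigidified module on an open. -/
theorem exists_piece_pushforward (M : Y.Modules) (hM : Scheme.Modules.IsInvertible M)
    (r : (Scheme.Modules.pullback s').obj M ≅ oMod W.toScheme) :
    ∃ P : Piece p s W, P.A = (Scheme.Modules.pushforward g).obj M := by
  let ρ₀ : ∀ V : X.Opens,
      Γ((Scheme.Modules.pushforward g).obj M, V) →+ Γ(W.toScheme, s' ⁻¹ᵁ g ⁻¹ᵁ V) := fun V =>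
    ((transpose s' r.hom).app (g ⁻¹ᵁ V)).hom
  let E := fun (V : X.Opens) (hV : V ≤ p ⁻¹ᵁ W) =>
    RingEquiv.ofBijective (toW g s' comm V) (bij_toW g s' comm (preimage_section_le hsp hV))
  refine ⟨{
    A := (Scheme.Modules.pushforward g).obj M
    free := hg ▸ isLocFree_pushforward g (isLocFree_of_isInvertible hM ⊤)
    ρ :=
      { app := fun V hV => (E V hV).symm.toRingHom.toAddMonoidHom.comp (ρ₀ V)
        app_smul := ?_
        app_mres := ?_ }
    gen := ?_ }, rfl⟩
  · intro V hV f x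
    change (E V hV).symm (ρ₀ V (f • x)) = s.app V f * (E V hV).symm (ρ₀ V x)
    apply (E V hV).injective
    rw [map_mul, RingEquiv.apply_symm_apply, RingEquiv.apply_symm_apply]
    change _ = toW g s' comm V (s.app V f) * _
    rw [toW_app]
    exact Scheme.Modules.Hom.app_smul (transpose s' r.hom) (g.app V f) x
  · intro V V' h hV x
    change (E V' (h.trans hV)).symm (ρ₀ V' (mres _ h x)) =
      fres T (s.preimage_mono h) ((E V hV).symm (ρ₀ V x))
    apply (E V' (h.trans hV)).injective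
    rw [RingEquiv.apply_symm_apply]
    change _ = toW g s' comm V' (fres T (s.preimage_mono h) ((E V hV).symm (ρ₀ V x)))
    rw [toW_fres g s' comm h]
    change _ = fres W.toScheme _ (E V hV ((E V hV).symm (ρ₀ V x)))
    rw [RingEquiv.apply_symm_apply]
    exact (LocHom.ofHom (transpose s' r.hom) ⊤).app_mres (g ⁻¹ᵁ V) (g ⁻¹ᵁ V') (g.preimage_mono h)
      le_top x
  · intro τ hτ
    obtain ⟨w, hw⟩ : τ ∈ Set.range W.ι := W.range_ι.ge hτ
    obtain ⟨V', e', he⟩ := exists_unit_section s' M r w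
    have hV : g ''ᵁ V' ≤ p ⁻¹ᵁ W := (LocHom.image_le_opensRange g V').trans hg.le
    refine ⟨g ''ᵁ V', hV, mres M (g.preimage_image_eq V').le e', ?_⟩
    let a : Γ(T, s ⁻¹ᵁ (g ''ᵁ V')) :=
      (E _ hV).symm (ρ₀ (g ''ᵁ V') (mres M (g.preimage_image_eq V').le e'))
    change τ ∈ T.basicOpen a
    have h1 : toW g s' comm _ a =
        fres W.toScheme (s'.preimage_mono (g.preimage_image_eq V').le)
          (show Γ(W.toScheme, s' ⁻¹ᵁ V') from (transpose s' r.hom).app V' e') := by
      change E _ hV a = _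
      rw [RingEquiv.apply_symm_apply]
      exact (LocHom.ofHom (transpose s' r.hom) ⊤).app_mres V' _ (g.preimage_image_eq V').le
        le_top e'
    have h2 : W.toScheme.basicOpen (toW g s' comm _ a) ≤ W.ι ⁻¹ᵁ T.basicOpen a := by
      rw [Scheme.preimage_basicOpen]
      exact ((W.toScheme.basicOpen_res (W.ι.app _ a) _).le).trans inf_le_right
    have h3 : w ∈ W.toScheme.basicOpen (toW g s' comm _ a) := by
      rw [h1]
      exact (W.toScheme.basicOpen_res _ _).ge
        ⟨by rw [g.preimage_image_eq]; exact W.toScheme.basicOpen_le _ he, he⟩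
    exact hw ▸ h2 h3

end Pushforward

end Fermat.Agent.Jac.Descent

end
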