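import Fermat.Agent.Jac.Descent.Piece

/-!
# Gluing pieces

Pieces on an open cover which are isomorphic on overlaps glue: their normal isomorphisms form a
cocycle, and the compatible families of sections make up a module.
-/

set_option autoImplicit false

universe u

open CategoryTheory CategoryTheory.Limits AlgebraicGeometry Opposite TopologicalSpace

noncomputable section

namespace Fermat.Agent.Jac.Descent

variable {X : Scheme.{u}} {ι : Type u} (A : ι → X.Modules) (Ω : ι → X.Opens)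

/-- Sections of `A i` over `V ⊓ Ω i`, as a module over the functions on `V`. -/
def Sec (V : X.Opens) (i : ι) : Type u := Γ(A i, V ⊓ Ω i)

instance (V : X.Opens) (i : ι) : AddCommGroup (Sec A Ω V i) :=
  inferInstanceAs (AddCommGroup Γ(A i, V ⊓ Ω i))

instance (V : X.Opens) (i : ι) : Module Γ(X, V) (Sec A Ω V i) :=
  Module.compHom (Γ(A i, V ⊓ Ω i)) (fres X (inf_le_left : V ⊓ Ω i ≤ V))

variable {A Ω}

/-- The underlying section. -/
def Sec.val {V : X.Opens} {i : ι} (x : Sec A Ω V i) : Γ(A i, V ⊓ Ω i) := x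

/-- Build from a section. -/
def Sec.mk {V : X.Opens} {i : ι} (x : Γ(A i, V ⊓ Ω i)) : Sec A Ω V i := x

@[simp] theorem Sec.val_mk {V : X.Opens} {i : ι} (x : Γ(A i, V ⊓ Ω i)) :
    (Sec.mk x).val = x := rfl

@[ext] theorem Sec.ext {V : X.Opens} {i : ι} {x y : Sec A Ω V i} (h : x.val = y.val) : x = y := h

@[simp] theorem Sec.val_add {V : X.Opens} {i : ι} (x y : Sec A Ω V i) :
    (x + y).val = x.val + y.val := rfl

@[simp] theorem Sec.val_zero {V : X.Opens} {i : ι} : (0 : Sec A Ω V i).val = 0 := rfl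

theorem Sec.val_smul {V : X.Opens} {i : ι} (f : Γ(X, V)) (x : Sec A Ω V i) :
    (f • x).val = fres X (inf_le_left : V ⊓ Ω i ≤ V) f • x.val := rfl

variable (θ : ∀ i j, LocHom (A i) (A j) (Ω i ⊓ Ω j))

/-- The compatible families over `V`. -/
def fam (V : X.Opens) : Submodule Γ(X, V) (∀ i, Sec A Ω V i) where
  carrier := {x | ∀ (i j : ι) (V' : X.Opens) (hi : V' ≤ V ⊓ Ω i) (hj : V' ≤ V ⊓ Ω j),
    (θ i j).app V' (le_inf (hi.trans inf_le_right) (hj.trans inf_le_right))
      (mres (A i) hi (x i).val) = mres (A j) hj (x j).val}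
  add_mem' {x y} hx hy i j V' hi hj := by simp [hx i j V' hi hj, hy i j V' hi hj]
  zero_mem' i j V' hi hj := by simp
  smul_mem' f x hx i j V' hi hj := by
    simp only [Pi.smul_apply, Sec.val_smul, mres_smul, LocHom.app_smul, fres_fres, hx i j V' hi hj]

/-- Restriction of compatible families. -/
def famRes {V V' : X.Opens} (h : V' ≤ V) : fam θ V →+ fam θ V' where
  toFun x := ⟨fun i => Sec.mk (mres (A i) (inf_le_inf_right _ h) (x.1 i).val), by
    intro i j W hi hj
    simp only [Sec.val_mk, mres_mres]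
    exact x.2 i j W _ _⟩
  map_zero' := by
    apply Subtype.ext
    funext i
    apply Sec.ext
    simp
  map_add' x y := by
    apply Subtype.ext
    funext i
    apply Sec.ext
    simp

theorem famRes_val {V V' : X.Opens} (h : V' ≤ V) (x : fam θ V) (i : ι) :
    ((famRes θ h x).1 i).val = mres (A i) (inf_le_inf_right _ h) (x.1 i).val := rfl

theorem fam_ext {V : X.Opens} {x y : fam θ V} (h : ∀ i, (x.1 i).val = (y.1 i).val) : x = y :=
  Subtype.ext (funext fun i => Sec.ext (h i))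

/-- The glued presheaf of abelian groups. -/
def famPresheaf : TopCat.Presheaf Ab.{u} X where
  obj V := AddCommGrpCat.of (fam θ V.unop)
  map i := AddCommGrpCat.ofHom (famRes θ (leOfHom i.unop))
  map_id V := by
    refine AddCommGrpCat.hom_ext (AddMonoidHom.ext fun x => ?_)
    refine fam_ext θ fun i => ?_
    exact mres_refl _ _ _
  map_comp i j := by
    refine AddCommGrpCat.hom_ext (AddMonoidHom.ext fun x => ?_)
    refine fam_ext θ fun k => ?_
    exact (mres_mres _ _ _ _).symm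

instance famModule (V : (X.Opens)ᵒᵖ) :
    Module (X.ringCatSheaf.obj.obj V) ((famPresheaf θ).obj V) :=
  inferInstanceAs (Module Γ(X, V.unop) (fam θ V.unop))

/-- The glued presheaf of modules. -/
def famModules : PresheafOfModules.{u} X.ringCatSheaf.obj :=
  PresheafOfModules.ofPresheaf (famPresheaf θ) fun V V' i r m => by
    refine fam_ext θ fun k => ?_
    let r' : Γ(X, V.unop) := r
    let m' : fam θ V.unop := m
    change mres (A k) (inf_le_inf_right _ (leOfHom i.unop)) ((r' • m').1 k).val =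
      ((fres X (leOfHom i.unop) r' • famRes θ (leOfHom i.unop) m').1 k).val
    rw [Submodule.coe_smul, Submodule.coe_smul, Pi.smul_apply, Pi.smul_apply, Sec.val_smul,
      Sec.val_smul, famRes_val, mres_smul, fres_fres, fres_fres]

theorem famPresheaf_isSheaf : (famPresheaf θ).IsSheaf := by
  rw [TopCat.Presheaf.isSheaf_iff_isSheafUniqueGluing]
  intro κ Vs sf hsf
  let sf' : ∀ a, fam θ (Vs a) := sf
  have hcov : ∀ i, iSup Vs ⊓ Ω i ≤ ⨆ a, Vs a ⊓ Ω i := by
    intro i z hz
    obtain ⟨a, ha⟩ := Opens.mem_iSup.mp hz.1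
    exact Opens.mem_iSup.mpr ⟨a, ha, hz.2⟩
  have hc : ∀ (a b : κ), famRes θ inf_le_left (sf' a) =
      famRes θ (inf_le_right : Vs a ⊓ Vs b ≤ Vs b) (sf' b) := hsf
  have hag : ∀ i a b, mres (A i) inf_le_left ((sf' a).1 i).val =
      mres (A i) (inf_le_right : (Vs a ⊓ Ω i) ⊓ (Vs b ⊓ Ω i) ≤ Vs b ⊓ Ω i) ((sf' b).1 i).val := by
    intro i a b
    have e := congrArg (fun x : fam θ (Vs a ⊓ Vs b) =>
      mres (A i) (le_inf (inf_le_inf inf_le_left inf_le_left) (inf_le_left.trans inf_le_right) :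
        (Vs a ⊓ Ω i) ⊓ (Vs b ⊓ Ω i) ≤ (Vs a ⊓ Vs b) ⊓ Ω i) (x.1 i).val) (hc a b)
    simpa [famRes_val] using e
  have loc : ∀ i (x y : Γ(A i, iSup Vs ⊓ Ω i)),
      (∀ a, mres (A i) (inf_le_inf_right _ (le_iSup Vs a)) x =
        mres (A i) (inf_le_inf_right _ (le_iSup Vs a)) y) → x = y := by
    intro i x y h
    refine mres_ext (A i) x y fun z hz => ?_
    obtain ⟨a, ha⟩ := Opens.mem_iSup.mp hz.1
    exact ⟨Vs a ⊓ Ω i, inf_le_inf_right _ (le_iSup Vs a), ⟨ha, hz.2⟩, h a⟩
  choose g hg using fun i => mres_glue (A i) (fun a => Vs a ⊓ Ω i)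
    (fun a => inf_le_inf_right _ (le_iSup Vs a)) (hcov i) (fun a => ((sf' a).1 i).val) (hag i)
  refine ⟨(⟨fun i => Sec.mk (g i), ?_⟩ : fam θ (iSup Vs)), fun a => ?_, fun y hy => ?_⟩
  · intro i j W hi hj
    refine mres_ext (A j) _ _ fun z hz => ?_
    obtain ⟨a, ha⟩ := Opens.mem_iSup.mp (hi hz).1
    refine ⟨W ⊓ Vs a, inf_le_left, ⟨hz, ha⟩, ?_⟩
    have hi' : W ⊓ Vs a ≤ Vs a ⊓ Ω i :=
      le_inf inf_le_right (inf_le_left.trans (hi.trans inf_le_right))
    have hj' : W ⊓ Vs a ≤ Vs a ⊓ Ω j :=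
      le_inf inf_le_right (inf_le_left.trans (hj.trans inf_le_right))
    rw [← (θ i j).app_mres W _ inf_le_left _, Sec.val_mk, Sec.val_mk, mres_mres, mres_mres,
      ← mres_mres (A i) (inf_le_inf_right _ (le_iSup Vs a)) hi', hg,
      ← mres_mres (A j) (inf_le_inf_right _ (le_iSup Vs a)) hj', hg]
    exact (sf' a).2 i j _ hi' hj'
  · refine fam_ext θ fun i => ?_
    exact hg i a
  · refine fam_ext θ fun i => loc i _ _ fun a => ?_
    have e := congrArg (fun x : fam θ (Vs a) => (x.1 i).val) (hy a)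
    exact e.trans (hg i a).symm

/-- The glued module. -/
def glued : X.Modules :=
  ⟨famModules θ, famPresheaf_isSheaf θ⟩

/-- A section of the glued module as a family. -/
def toFam {V : X.Opens} (x : Γ(glued θ, V)) : fam θ V := x

theorem toFam_mres {V V' : X.Opens} (h : V' ≤ V) (x : Γ(glued θ, V)) :
    toFam θ (mres (glued θ) h x) = famRes θ h (toFam θ x) := rfl

/-- The projection to `A k` over `Ω k`. -/
def proj (k : ι) : LocHom (glued θ) (A k) (Ω k) where
  app V hV :=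
    { toFun := fun x => mres (A k) (le_inf le_rfl hV) ((toFam θ x).1 k).val
      map_zero' := map_zero _
      map_add' := fun x y => map_add (mres (A k) (le_inf le_rfl hV)) _ _ }
  app_smul V hV f x := by
    change mres (A k) _ ((f • toFam θ x).1 k).val = f • mres (A k) _ ((toFam θ x).1 k).val
    rw [Submodule.coe_smul, Pi.smul_apply, Sec.val_smul, mres_smul, fres_fres, fres_refl]
  app_mres V V' h hV x := by
    change mres (A k) _ ((toFam θ (mres (glued θ) h x)).1 k).val =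
      mres (A k) h (mres (A k) _ ((toFam θ x).1 k).val)
    rw [toFam_mres, famRes_val, mres_mres, mres_mres]

theorem theta_proj {i j : ι} (V : X.Opens) (hi : V ≤ Ω i) (hj : V ≤ Ω j)
    (x : Γ(glued θ, V)) :
    (θ i j).app V (le_inf hi hj) ((proj θ i).app V hi x) = (proj θ j).app V hj x :=
  (toFam θ x).2 i j V (le_inf le_rfl hi) (le_inf le_rfl hj)

theorem bij_proj (hid : ∀ i V (hV : V ≤ Ω i) (x : Γ(A i, V)),
      (θ i i).app V (le_inf hV hV) x = x)
    (hcoc : ∀ i j k V (hi : V ≤ Ω i) (hj : V ≤ Ω j) (hk : V ≤ Ω k) (x : Γ(A i, V)),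
      (θ j k).app V (le_inf hj hk) ((θ i j).app V (le_inf hi hj) x) =
        (θ i k).app V (le_inf hi hk) x)
    (k : ι) : (proj θ k).Bij := by
  intro V hV
  refine ⟨fun x y h => ?_, fun y => ?_⟩
  · refine fam_ext θ (x := toFam θ x) (y := toFam θ y) fun i => ?_
    have hx := (toFam θ x).2 k i (V ⊓ Ω i) (le_inf inf_le_left (inf_le_left.trans hV)) le_rfl
    have hy := (toFam θ y).2 k i (V ⊓ Ω i) (le_inf inf_le_left (inf_le_left.trans hV)) le_rfl
    simp only [mres_refl] at hx hy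
    rw [← hx, ← hy]
    congr 1
    have e := congrArg (mres (A k) (inf_le_left : V ⊓ Ω i ≤ V)) h
    change mres (A k) _ (mres (A k) _ ((toFam θ x).1 k).val) =
      mres (A k) _ (mres (A k) _ ((toFam θ y).1 k).val) at e
    simpa using e
  · let x : fam θ V := ⟨fun i => Sec.mk ((θ k i).app (V ⊓ Ω i)
      (le_inf (inf_le_left.trans hV) inf_le_right) (mres (A k) inf_le_left y)), by
      intro i j W hi hj
      rw [Sec.val_mk, Sec.val_mk, ← (θ k i).app_mres _ W hi, ← (θ k j).app_mres _ W hj,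
        mres_mres, mres_mres]
      exact hcoc k i j W ((hi.trans inf_le_left).trans hV) (hi.trans inf_le_right)
        (hj.trans inf_le_right) _⟩
    refine ⟨x, ?_⟩
    change mres (A k) _ ((θ k k).app (V ⊓ Ω k) _ (mres (A k) inf_le_left y)) = y
    rw [hid k (V ⊓ Ω k) inf_le_right, mres_mres, mres_refl]

section Pieces

variable {T : Scheme.{u}} {p : X ⟶ T} {s : T ⟶ X} (hsp : s ≫ p = 𝟙 T)
  (hfun : ∀ U : T.Opens, Function.Bijective (p.app U).hom)

include hsp hfun in
/-- Pieces which are isomorphic on overlaps glue. -/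
theorem exists_glued_piece (U : ι → T.Opens) (hU : ⨆ i, U i = ⊤) (P : ∀ i, Piece p s (U i))
    (h : ∀ i j, ∃ φ : LocHom (P i).A (P j).A (p ⁻¹ᵁ (U i ⊓ U j)), φ.Bij) :
    ∃ N : Piece p s ⊤, ∀ i, ∃ φ : LocHom N.A (P i).A (p ⁻¹ᵁ U i), φ.Bij := by
  choose φ₀ hφ₀ using h
  choose θ' hθb hθn using fun i j =>
    exists_normal hsp hfun (P := P i) (Q := P j) inf_le_left inf_le_right (φ₀ i j) (hφ₀ i j)
  let A : ι → X.Modules := fun i => (P i).A
  let Ω : ι → X.Opens := fun i => p ⁻¹ᵁ U i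
  let θ : ∀ i j, LocHom (A i) (A j) (Ω i ⊓ Ω j) := θ'
  have hid : ∀ i V (hV : V ≤ Ω i) (x : Γ(A i, V)), (θ i i).app V (le_inf hV hV) x = x := by
    intro i V hV x
    have := normal_unique hsp hfun (W := U i ⊓ U i) inf_le_left inf_le_right (hθn i i)
      (LocHom.bij_refl (A := (P i).A)) (fun _ _ _ _ _ => rfl)
    exact congrArg (fun F : LocHom (P i).A (P i).A _ => F.app V (le_inf hV hV) x) this
  have hcoc : ∀ i j k V (hi : V ≤ Ω i) (hj : V ≤ Ω j) (hk : V ≤ Ω k) (x : Γ(A i, V)),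
      (θ j k).app V (le_inf hj hk) ((θ i j).app V (le_inf hi hj) x) =
        (θ i k).app V (le_inf hi hk) x := by
    intro i j k V hi hj hk x
    let W := U i ⊓ U j ⊓ U k
    have e₁ : W ≤ U i ⊓ U j := inf_le_left
    have e₂ : W ≤ U j ⊓ U k := le_inf (inf_le_left.trans inf_le_right) inf_le_right
    have e₃ : W ≤ U i ⊓ U k := le_inf (inf_le_left.trans inf_le_left) inf_le_right
    have hn : Normal (W := W) (P i) (P k)
        (((θ' i j).res (p.preimage_mono e₁)).comp ((θ' j k).res (p.preimage_mono e₂))) := by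
      intro V' hV hP hQ y
      rw [LocHom.comp_app]
      have hVj : V' ≤ p ⁻¹ᵁ U j := hV.trans (p.preimage_mono (e₁.trans inf_le_right))
      exact (((hθn j k).res e₂) V' hV hVj hQ _).trans (((hθn i j).res e₁) V' hV hP hVj y)
    have := normal_unique hsp hfun (W := W) (e₃.trans inf_le_left) (e₃.trans inf_le_right) hn
      ((hθb i k).res (p.preimage_mono e₃)) ((hθn i k).res e₃)
    exact congrArg (fun F : LocHom (P i).A (P k).A _ => F.app V (le_inf (le_inf hi hj) hk) x) this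
  have hcov : p ⁻¹ᵁ (⊤ : T.Opens) ≤ ⨆ i, Ω i := by
    intro z _
    obtain ⟨i, hi⟩ := Opens.mem_iSup.mp (hU.ge (Set.mem_univ (p z)))
    exact Opens.mem_iSup.mpr ⟨i, hi⟩
  obtain ⟨ρ, hρ⟩ := LocHom.exists_glue (Ω := p ⁻¹ᵁ (⊤ : T.Opens)) Ω hcov
    (fun i => (proj θ i).comp (P i).ρ) (by
      intro k l V hk hl x
      rw [LocHom.comp_app, LocHom.comp_app, ← theta_proj θ V hk hl x]
      exact (hθn k l V (le_inf hk hl) hk hl _).symm)
  refine ⟨{ A := glued θ, free := ?_, ρ := ρ, gen := ?_ },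
    fun i => ⟨proj θ i, bij_proj θ hid hcoc i⟩⟩
  · intro z hz
    obtain ⟨i, hi⟩ := Opens.mem_iSup.mp (hcov hz)
    obtain ⟨V, hzV, hV, ψ, hψ⟩ := (P i).free z hi
    exact ⟨V, hzV, le_top, ((proj θ i).res hV).comp ψ, ((bij_proj θ hid hcoc i).res hV).comp hψ⟩
  · intro τ _
    obtain ⟨i, hi⟩ := Opens.mem_iSup.mp (hU.ge (Set.mem_univ τ))
    obtain ⟨V, hV, e, he⟩ := (P i).gen τ hi
    obtain ⟨x, hx⟩ := (bij_proj θ hid hcoc i V hV).2 e
    refine ⟨V, le_top, x, ?_⟩
    rw [hρ i V le_top hV x, LocHom.comp_app, hx]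
    exact he

end Pieces

end Fermat.Agent.Jac.Descent

end
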