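import Mathlib

/-!
# Morphisms of modules defined on the opens below a fixed one

`LocHom A B Ω` is a compatible family of maps of sections on the opens below `Ω`;
`exists_glue` glues such families.
-/

set_option autoImplicit false

universe u

open CategoryTheory CategoryTheory.Limits AlgebraicGeometry Opposite TopologicalSpace

noncomputable section

namespace Fermat.Agent.Jac.Descent

variable {X : Scheme.{u}}

/-- Restriction of sections of a module. -/
noncomputable def mres (A : X.Modules) {V V' : X.Opens} (h : V' ≤ V) : Γ(A, V) →+ Γ(A, V') :=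
  (A.presheaf.map (homOfLE h).op).hom

/-- Restriction of functions. -/
noncomputable def fres (X : Scheme.{u}) {V V' : X.Opens} (h : V' ≤ V) : Γ(X, V) →+* Γ(X, V') :=
  (X.presheaf.map (homOfLE h).op).hom

theorem mres_smul (A : X.Modules) {V V' : X.Opens} (h : V' ≤ V) (f : Γ(X, V)) (x : Γ(A, V)) :
    mres A h (f • x) = fres X h f • mres A h x :=
  Scheme.Modules.map_smul A _ _ _

@[simp] theorem mres_refl (A : X.Modules) {V : X.Opens} (h : V ≤ V) (x : Γ(A, V)) :
    mres A h x = x := by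
  simp [mres]

@[simp] theorem fres_refl {V : X.Opens} (h : V ≤ V) (x : Γ(X, V)) :
    fres X h x = x := by
  simp [fres]

@[simp] theorem mres_mres (A : X.Modules) {V V' V'' : X.Opens} (h : V' ≤ V) (h' : V'' ≤ V')
    (x : Γ(A, V)) : mres A h' (mres A h x) = mres A (h'.trans h) x := by
  simp only [mres, ← ConcreteCategory.comp_apply, ← Functor.map_comp, ← op_comp]
  rfl

@[simp] theorem fres_fres {V V' V'' : X.Opens} (h : V' ≤ V) (h' : V'' ≤ V') (x : Γ(X, V)) :
    fres X h' (fres X h x) = fres X (h'.trans h) x := by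
  simp only [fres, ← ConcreteCategory.comp_apply, ← Functor.map_comp, ← op_comp]
  rfl

/-- Sections agreeing near every point are equal. -/
theorem mres_ext (A : X.Modules) {V : X.Opens} (x y : Γ(A, V))
    (h : ∀ z ∈ V, ∃ (V' : X.Opens) (hV' : V' ≤ V), z ∈ V' ∧ mres A hV' x = mres A hV' y) :
    x = y := by
  choose V' hV' hz he using h
  refine TopCat.Sheaf.eq_of_locally_eq' (⟨A.presheaf, A.isSheaf⟩ : TopCat.Sheaf Ab X)
    (fun z : V => V' z.1 z.2) V (fun z => homOfLE (hV' z.1 z.2)) ?_ x y (fun z => he z.1 z.2)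
  intro z hzV
  exact Opens.mem_iSup.mpr ⟨⟨z, hzV⟩, hz z hzV⟩

theorem fres_ext {V : X.Opens} (x y : Γ(X, V))
    (h : ∀ z ∈ V, ∃ (V' : X.Opens) (hV' : V' ≤ V), z ∈ V' ∧ fres X hV' x = fres X hV' y) :
    x = y := by
  choose V' hV' hz he using h
  refine TopCat.Sheaf.eq_of_locally_eq' X.sheaf
    (fun z : V => V' z.1 z.2) V (fun z => homOfLE (hV' z.1 z.2)) ?_ x y (fun z => he z.1 z.2)
  intro z hzV
  exact Opens.mem_iSup.mpr ⟨⟨z, hzV⟩, hz z hzV⟩

/-- Gluing of sections of a module. -/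
theorem mres_glue (A : X.Modules) {κ : Type u} {V : X.Opens} (Ω : κ → X.Opens)
    (hΩ : ∀ k, Ω k ≤ V) (hcov : V ≤ iSup Ω) (s : ∀ k, Γ(A, Ω k))
    (h : ∀ k l, mres A inf_le_left (s k) = mres A (inf_le_right : Ω k ⊓ Ω l ≤ Ω l) (s l)) :
    ∃ x : Γ(A, V), ∀ k, mres A (hΩ k) x = s k :=
  (TopCat.Sheaf.existsUnique_gluing' (⟨A.presheaf, A.isSheaf⟩ : TopCat.Sheaf Ab X)
    Ω V (fun k => homOfLE (hΩ k)) hcov s h).exists

theorem fres_glue {κ : Type u} {V : X.Opens} (Ω : κ → X.Opens)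
    (hΩ : ∀ k, Ω k ≤ V) (hcov : V ≤ iSup Ω) (s : ∀ k, Γ(X, Ω k))
    (h : ∀ k l, fres X inf_le_left (s k) = fres X (inf_le_right : Ω k ⊓ Ω l ≤ Ω l) (s l)) :
    ∃ x : Γ(X, V), ∀ k, fres X (hΩ k) x = s k :=
  (TopCat.Sheaf.existsUnique_gluing' X.sheaf Ω V (fun k => homOfLE (hΩ k)) hcov s h).exists

/-- A morphism of modules defined on the opens contained in `Ω`. -/
@[ext]
structure LocHom (A B : X.Modules) (Ω : X.Opens) : Type u where
  app : ∀ V : X.Opens, V ≤ Ω → (Γ(A, V) →+ Γ(B, V))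
  app_smul : ∀ (V : X.Opens) (hV : V ≤ Ω) (f : Γ(X, V)) (x : Γ(A, V)),
    app V hV (f • x) = f • app V hV x
  app_mres : ∀ (V V' : X.Opens) (h : V' ≤ V) (hV : V ≤ Ω) (x : Γ(A, V)),
    app V' (h.trans hV) (mres A h x) = mres B h (app V hV x)

namespace LocHom

variable {A B D : X.Modules} {Ω Ω' : X.Opens}

/-- A `LocHom` is an isomorphism. -/
def Bij (φ : LocHom A B Ω) : Prop := ∀ V hV, Function.Bijective (φ.app V hV)

/-- Restriction to smaller opens. -/
def res (φ : LocHom A B Ω) (h : Ω' ≤ Ω) : LocHom A B Ω' where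
  app V hV := φ.app V (hV.trans h)
  app_smul V _ := φ.app_smul V _
  app_mres V V' hVV _ := φ.app_mres V V' hVV _

@[simp] theorem res_app (φ : LocHom A B Ω) (h : Ω' ≤ Ω) (V : X.Opens) (hV : V ≤ Ω')
    (x : Γ(A, V)) : (φ.res h).app V hV x = φ.app V (hV.trans h) x := rfl

theorem Bij.res {φ : LocHom A B Ω} (hφ : φ.Bij) (h : Ω' ≤ Ω) : (φ.res h).Bij :=
  fun V hV => hφ V (hV.trans h)

/-- The identity. -/
def refl (A : X.Modules) (Ω : X.Opens) : LocHom A A Ω where
  app _ _ := AddMonoidHom.id _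
  app_smul _ _ _ _ := rfl
  app_mres _ _ _ _ _ := rfl

theorem bij_refl : (refl A Ω).Bij := fun _ _ => Function.bijective_id

/-- Composition. -/
def comp (φ : LocHom A B Ω) (ψ : LocHom B D Ω) : LocHom A D Ω where
  app V hV := (ψ.app V hV).comp (φ.app V hV)
  app_smul V _ f x := by
    simp [φ.app_smul, ψ.app_smul]
  app_mres V V' h hV x := by
    simp [φ.app_mres V V' h hV, ψ.app_mres V V' h hV]

@[simp] theorem comp_app (φ : LocHom A B Ω) (ψ : LocHom B D Ω) (V : X.Opens) (hV : V ≤ Ω)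
    (x : Γ(A, V)) : (φ.comp ψ).app V hV x = ψ.app V hV (φ.app V hV x) := rfl

theorem Bij.comp {φ : LocHom A B Ω} {ψ : LocHom B D Ω} (hφ : φ.Bij) (hψ : ψ.Bij) :
    (φ.comp ψ).Bij := fun V hV => (hψ V hV).comp (hφ V hV)

/-- Multiplication by a function. -/
noncomputable def smul (a : Γ(X, Ω)) (φ : LocHom A B Ω) : LocHom A B Ω where
  app V hV :=
    { toFun := fun x => fres X hV a • φ.app V hV x
      map_zero' := by simp
      map_add' := by simp [smul_add] }
  app_smul V hV f x := by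
    change fres X hV a • φ.app V hV (f • x) = f • fres X hV a • φ.app V hV x
    rw [φ.app_smul, smul_smul, smul_smul, mul_comm]
  app_mres V V' h hV x := by
    change fres X (h.trans hV) a • φ.app V' (h.trans hV) (mres A h x) =
      mres B h (fres X hV a • φ.app V hV x)
    rw [mres_smul, fres_fres, φ.app_mres V V' h hV]

@[simp] theorem smul_app (a : Γ(X, Ω)) (φ : LocHom A B Ω) (V : X.Opens) (hV : V ≤ Ω)
    (x : Γ(A, V)) : (smul a φ).app V hV x = fres X hV a • φ.app V hV x := rfl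

theorem Bij.smul {φ : LocHom A B Ω} (hφ : φ.Bij) {a : Γ(X, Ω)} (ha : IsUnit a) :
    (LocHom.smul a φ).Bij := by
  intro V hV
  have hu : IsUnit (fres X hV a) := ha.map _
  refine Function.Bijective.comp (g := fun y : Γ(B, V) => fres X hV a • y) ?_ (hφ V hV)
  obtain ⟨v, hv⟩ := hu
  rw [← hv]
  exact MulAction.bijective v

/-- The inverse of an isomorphism. -/
noncomputable def symm (φ : LocHom A B Ω) (hφ : φ.Bij) : LocHom B A Ω where
  app V hV := (AddEquiv.ofBijective (φ.app V hV) (hφ V hV)).symm.toAddMonoidHom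
  app_smul V hV f x := by
    apply (hφ V hV).1
    rw [φ.app_smul]
    change AddEquiv.ofBijective _ (hφ V hV) (_) = f • AddEquiv.ofBijective _ (hφ V hV) _
    simp
  app_mres V V' h hV x := by
    apply (hφ V' (h.trans hV)).1
    rw [φ.app_mres V V' h hV]
    change AddEquiv.ofBijective _ (hφ V' (h.trans hV)) (_) =
      mres B h (AddEquiv.ofBijective _ (hφ V hV) _)
    simp

@[simp] theorem app_symm_app (φ : LocHom A B Ω) (hφ : φ.Bij) (V : X.Opens) (hV : V ≤ Ω)
    (y : Γ(B, V)) : φ.app V hV ((φ.symm hφ).app V hV y) = y :=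
  (AddEquiv.ofBijective (φ.app V hV) (hφ V hV)).apply_symm_apply y

theorem bij_symm (φ : LocHom A B Ω) (hφ : φ.Bij) : (φ.symm hφ).Bij :=
  fun V hV => (AddEquiv.ofBijective (φ.app V hV) (hφ V hV)).symm.bijective

/-- The restriction of a global morphism. -/
noncomputable def ofHom (f : A ⟶ B) (Ω : X.Opens) : LocHom A B Ω where
  app V _ := (f.app V).hom
  app_smul _ _ r x := Scheme.Modules.Hom.app_smul f r x
  app_mres V V' h _ x := by
    exact ConcreteCategory.congr_hom (f.mapPresheaf.naturality (homOfLE h).op) x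

/-- The global morphism of a `LocHom` on the whole space. -/
noncomputable def toHom (φ : LocHom A B ⊤) : A ⟶ B :=
  (Scheme.Modules.fullyFaithfulToPresheafOfModules).preimage <|
    PresheafOfModules.homMk
      { app := fun V => AddCommGrpCat.ofHom (φ.app V.unop le_top)
        naturality := fun V V' i => by
          ext x
          exact φ.app_mres V.unop V'.unop (leOfHom i.unop) le_top x }
      (fun V r m => φ.app_smul V.unop le_top r m)

theorem isIso_toHom {φ : LocHom A B ⊤} (hφ : φ.Bij) : IsIso φ.toHom := by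
  rw [Scheme.Modules.Hom.isIso_iff_isIso_app]
  intro V
  exact (ConcreteCategory.isIso_iff_bijective _).mpr (hφ V le_top)

variable {κ : Type u}

/-- Gluing of morphisms defined on an open cover. -/
theorem exists_glue (Ωs : κ → X.Opens) (hcov : Ω ≤ iSup Ωs) (Φ : ∀ k, LocHom A B (Ωs k))
    (hΦ : ∀ k l V (hk : V ≤ Ωs k) (hl : V ≤ Ωs l) (x : Γ(A, V)),
      (Φ k).app V hk x = (Φ l).app V hl x) :
    ∃ φ : LocHom A B Ω, ∀ k V (hV : V ≤ Ω) (hk : V ≤ Ωs k) (x : Γ(A, V)),
      φ.app V hV x = (Φ k).app V hk x := by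
  have uniq : ∀ V (_ : V ≤ Ω) (y y' : Γ(B, V)),
      (∀ k, mres B (inf_le_left : V ⊓ Ωs k ≤ V) y = mres B (inf_le_left : V ⊓ Ωs k ≤ V) y') →
        y = y' := by
    intro V hV y y' h
    refine mres_ext B y y' fun z hz => ?_
    obtain ⟨k, hk⟩ := Opens.mem_iSup.mp (hcov (hV hz))
    exact ⟨V ⊓ Ωs k, inf_le_left, ⟨hz, hk⟩, h k⟩
  have ex : ∀ V (_ : V ≤ Ω) (x : Γ(A, V)), ∃ y : Γ(B, V), ∀ k,
      mres B (inf_le_left : V ⊓ Ωs k ≤ V) y =
        (Φ k).app (V ⊓ Ωs k) inf_le_right (mres A inf_le_left x) := by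
    intro V hV x
    refine mres_glue B (fun k => V ⊓ Ωs k) (fun k => inf_le_left) ?_ _ ?_
    · intro z hz
      obtain ⟨k, hk⟩ := Opens.mem_iSup.mp (hcov (hV hz))
      exact Opens.mem_iSup.mpr ⟨k, hz, hk⟩
    · intro k l
      rw [← (Φ k).app_mres, ← (Φ l).app_mres, mres_mres, mres_mres]
      exact hΦ k l _ _ _ _
  choose g hg using ex
  refine ⟨{ app := fun V hV => AddMonoidHom.mk' (g V hV) ?_, app_smul := ?_, app_mres := ?_ }, ?_⟩
  · intro x y
    apply uniq V hV
    intro k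
    simp [hg]
  · intro V hV f x
    apply uniq V hV
    intro k
    simp [hg, mres_smul, (Φ k).app_smul]
  · intro V V' h hV x
    apply uniq V' (h.trans hV)
    intro k
    simp only [AddMonoidHom.mk'_apply, hg, mres_mres]
    have e : V' ⊓ Ωs k ≤ V ⊓ Ωs k := inf_le_inf_right _ h
    rw [← mres_mres B (inf_le_left : V ⊓ Ωs k ≤ V) e, hg, ← (Φ k).app_mres, mres_mres]
  · intro k V hV hk x
    have e : V ≤ V ⊓ Ωs k := le_inf le_rfl hk
    calc g V hV x = mres B e (mres B (inf_le_left : V ⊓ Ωs k ≤ V) (g V hV x)) := by simp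
      _ = _ := by rw [hg, ← (Φ k).app_mres, mres_mres]; simp

/-- Being an isomorphism is local. -/
theorem bij_of_locally (φ : LocHom A B Ω) (Ωs : κ → X.Opens) (hcov : Ω ≤ iSup Ωs)
    (h : ∀ k V (hV : V ≤ Ω), V ≤ Ωs k → Function.Bijective (φ.app V hV)) : φ.Bij := by
  have hk' : ∀ k V (_ : V ≤ Ω), V ⊓ Ωs k ≤ Ω := fun k V hV => inf_le_left.trans hV
  intro V hV
  have inj : ∀ V' (hV' : V' ≤ Ω), Function.Injective (φ.app V' hV') := by
    intro V' hV' x x' e
    refine mres_ext A x x' fun z hz => ?_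
    obtain ⟨k, hk⟩ := Opens.mem_iSup.mp (hcov (hV' hz))
    refine ⟨V' ⊓ Ωs k, inf_le_left, ⟨hz, hk⟩, (h k _ (hk' k V' hV') inf_le_right).1 ?_⟩
    rw [φ.app_mres V' _ inf_le_left hV', φ.app_mres V' _ inf_le_left hV', e]
  refine ⟨inj V hV, fun y => ?_⟩
  choose s hs using fun k => (h k _ (hk' k V hV) inf_le_right).2 (mres B inf_le_left y)
  obtain ⟨x, hx⟩ := mres_glue A (fun k => V ⊓ Ωs k) (fun k => inf_le_left)
    (fun z hz => by
      obtain ⟨k, hk⟩ := Opens.mem_iSup.mp (hcov (hV hz))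
      exact Opens.mem_iSup.mpr ⟨k, hz, hk⟩) s
    (fun k l => by
      apply inj _ (inf_le_left.trans (hk' k V hV))
      rw [φ.app_mres (V ⊓ Ωs k) _ inf_le_left (hk' k V hV),
        φ.app_mres (V ⊓ Ωs l) _ inf_le_right (hk' l V hV), hs, hs, mres_mres, mres_mres])
  refine ⟨x, mres_ext B _ _ fun z hz => ?_⟩
  obtain ⟨k, hk⟩ := Opens.mem_iSup.mp (hcov (hV hz))
  refine ⟨V ⊓ Ωs k, inf_le_left, ⟨hz, hk⟩, ?_⟩
  rw [← φ.app_mres, hx, hs]

end LocHom

end Fermat.Agent.Jac.Descent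

end
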